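import Fermat.Agent.S37.Inv.Defs

/-!
# S37, block P3 (INV), part A: elements of `B ∩ O_v` are integral over `A_K[x]`, hence take integral values
-/

set_option autoImplicit false

open Polynomial AlgebraicCurve

noncomputable section

namespace Fermat.Agent.S37.Inv

open Fermat.Agent.GAL.KL Fermat.Agent.GAL.KLC Fermat.Agent.GAL.KLB Fermat.Agent.S24.FF
open Fermat.Agent.S27 (val)

variable {K F k Γ₀ : Type*} [Field K] [Field F] [Algebra K F] [Field k]
  [LinearOrderedCommGroupWithZero Γ₀] {v : Valuation F Γ₀} {ρ : v.integer →+* LaurentSeries k}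

/-- an element of `B ∩ O_v` is a root of a monic polynomial with coefficients in `A_K[t]`
(`Q.coeff i : (AK K v)[X]` is evaluated at `t`).  Proof: copy the first half of `KLB.isInt_rho`
(orthonormal basis `e` of `B`, matrix of the multiplication by `z`), then `KLB.intRed_isIntegralElem`
with `f := eval₂RingHom (toInt K v) t`. -/
theorem isIntegralElem_toInt [IsAlgClosed K] [CharZero K] (t : v.integer)
    (hG : Gauss K v (t : F)) {d : ℕ} (β : Fin d → F) (hβ : ON K v (t : F) β)
    (hβs : Spans K (t : F) β) (z : v.integer) (hz : IsInt K (t : F) (z : F)) :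
    (eval₂RingHom (toInt K v) t).IsIntegralElem z := by
  obtain ⟨b, hb⟩ := exists_basis_BB hG.inj β (ON.inj hG hβ) hβs
  obtain ⟨e, he, hON⟩ := exists_ON_basis hG β hβ hβs (BB K (t : F)) b hb
  have hemem : ∀ j, IsInt K (t : F) (e j) := fun j =>
    (he.2 (e j)).2 ⟨Pi.single j 1, by rw [comb_single, map_one, one_mul]⟩
  have hP : ∀ j, ∃ P : Fin d → K[X], (z : F) * e j = comb K (t : F) P e := fun j =>
    (he.2 _).1 (hz.mul (hemem j))
  choose P hP using hP
  have hv : ∀ j i n, v (algebraMap K F ((P j i).coeff n)) ≤ 1 := by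
    intro j i
    refine (hG (P j i) 1).1 ?_
    refine (hON (P j) 1).1 ?_ i
    rw [← hP j, map_mul, hON.v_eq_one j, mul_one]
    exact z.2
  have hQ : ∀ j i, ∃ Q : (AK K v)[X], Q.map (AK K v).subtype = P j i := fun j i =>
    exists_lift_poly (P j i) (hv j i)
  choose Q hQ using hQ
  let E : Fin d → v.integer := fun j => ⟨e j, le_of_eq (hON.v_eq_one j)⟩
  have hE : ∀ j, z * E j = ∑ i, eval₂ (toInt K v) t (Q j i) * E i := by
    intro j
    apply Subtype.ext
    have h1 : ((∑ i, eval₂ (toInt K v) t (Q j i) * E i : v.integer) : F)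
        = ∑ i, aeval (t : F) (P j i) * e i := by
      rw [← Subring.subtype_apply, map_sum]
      refine Finset.sum_congr rfl fun i _ => ?_
      rw [map_mul, Subring.subtype_apply, Subring.subtype_apply, coe_eval₂_toInt, hQ]
    rw [h1]
    exact hP j
  have hne : ∀ j, E j ≠ 0 := by
    intro j h0
    have h1 : v (e j) = 1 := hON.v_eq_one j
    have h2 : e j = 0 := congrArg Subtype.val h0
    rw [h2, map_zero] at h1
    exact zero_ne_one h1
  -- `d ≠ 0`
  obtain ⟨p1, hp1⟩ := (he.2 1).1 IsInt.one
  have hd : 0 < d := by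
    rcases Nat.eq_zero_or_pos d with rfl | hd
    · simp [comb] at hp1
    · exact hd
  exact intRed_isIntegralElem _ (fun j i => Q j i) z E
    (fun h0 => hne ⟨0, hd⟩ (congrFun h0 ⟨0, hd⟩)) fun j => hE j

/-- the valuation ring `A_K` is integrally closed in `K`. -/
theorem mem_AK_of_isIntegralElem {c : K} (h : (AK K v).subtype.IsIntegralElem c) : c ∈ AK K v :=
  (Valuation.integer.integers (v.comap (algebraMap K F))).mem_of_integral h

/-- the subring of the functions regular at `P`. -/
def IntA_reg (P : Place K F) : Subring F where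
  carrier := {f | 0 ≤ P.ord f}
  mul_mem' := fun ha hb => Fermat.Agent.S27.ord_mul_nonneg P ha hb
  one_mem' := by
    have := Fermat.Agent.S27.ord_algebraMap_nonneg P (1 : K)
    rwa [map_one] at this
  add_mem' := fun ha hb => Fermat.Agent.S27.ord_add_nonneg P ha hb
  zero_mem' := by
    have := Fermat.Agent.S27.ord_algebraMap_nonneg P (0 : K)
    rwa [map_zero] at this
  neg_mem' := fun ha => Fermat.Agent.S27.ord_neg_nonneg P ha

theorem IntA_mem_reg (P : Place K F) (f : F) : f ∈ IntA_reg P ↔ 0 ≤ P.ord f := Iff.rfl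

/-- the value at `P` as a ring homomorphism. -/
def IntA_valHom [IsAlgClosed K] [IsFF1 K F] (P : Place K F) : IntA_reg P →+* K where
  toFun f := val P (f : F)
  map_one' := Fermat.Agent.S27.val_one P
  map_mul' a b := Fermat.Agent.S27.val_mul P a.2 b.2
  map_zero' := Fermat.Agent.S27.val_zero P
  map_add' a b := Fermat.Agent.S27.val_add P a.2 b.2

/-- constants as regular functions. -/
def IntA_const (P : Place K F) : K →+* IntA_reg P :=
  (algebraMap K F).codRestrict (IntA_reg P) (fun c => Fermat.Agent.S27.ord_algebraMap_nonneg P c)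

/-- **values are integral**: `z ∈ B ∩ O_v`, `t(P) ∈ A_K` ⇒ `z(P) ∈ A_K`. -/
theorem val_mem_AK [IsAlgClosed K] [CharZero K] [IsFF1 K F] (t : v.integer)
    (hG : Gauss K v (t : F)) {d : ℕ} (β : Fin d → F) (hβ : ON K v (t : F) β)
    (hβs : Spans K (t : F) β) (z : v.integer) (hz : IsInt K (t : F) (z : F))
    (P : Place K F) (hP : 0 ≤ P.ord (t : F)) (hPt : val P (t : F) ∈ AK K v) :
    val P (z : F) ∈ AK K v := by
  have ht : Transcendental K (t : F) := by
    rw [transcendental_iff]
    intro p hp
    exact hG.inj p hp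
  have hzP : 0 ≤ P.ord (z : F) := (isInt_iff_forall_ord ht (z : F)).1 hz P hP
  obtain ⟨R, hRm, hR⟩ := isIntegralElem_toInt t hG β hβ hβs z hz
  apply mem_AK_of_isIntegralElem
  refine ⟨R.map (evalRingHom (⟨val P (t : F), hPt⟩ : AK K v)), hRm.map _, ?_⟩
  rw [eval₂_map]
  -- the ring hom `(AK K v)[X] → reg P`
  let g' : (AK K v)[X] →+* IntA_reg P :=
    eval₂RingHom ((IntA_const P).comp (AK K v).subtype) ⟨(t : F), hP⟩
  have h1 : (v.integer.subtype).comp (eval₂RingHom (toInt K v) t) = (IntA_reg P).subtype.comp g' := by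
    apply Polynomial.ringHom_ext
    · intro a
      simp only [RingHom.comp_apply, coe_eval₂RingHom, eval₂_C, g']
      rfl
    · simp only [RingHom.comp_apply, coe_eval₂RingHom, eval₂_X, g']
      rfl
  have h2 : (IntA_valHom P).comp g' =
      (AK K v).subtype.comp (evalRingHom (⟨val P (t : F), hPt⟩ : AK K v)) := by
    apply Polynomial.ringHom_ext
    · intro a
      simp only [RingHom.comp_apply, coe_eval₂RingHom, eval₂_C, g', coe_evalRingHom, eval_C]
      exact Fermat.Agent.S27.val_algebraMap P _
    · simp only [RingHom.comp_apply, coe_eval₂RingHom, eval₂_X, g', coe_evalRingHom, eval_X]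
      rfl
  have h3 : eval₂ g' (⟨(z : F), hzP⟩ : IntA_reg P) R = 0 := by
    apply (IntA_reg P).subtype_injective
    rw [map_zero, hom_eval₂, ← h1]
    have := congrArg v.integer.subtype hR
    rw [map_zero, hom_eval₂] at this
    exact this
  have h4 := congrArg (IntA_valHom P) h3
  rw [map_zero, hom_eval₂, h2] at h4
  exact h4

end Fermat.Agent.S37.Inv
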