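import Fermat.Agent.GAL.KLB.Count
import Fermat.Agent.GAL.KLC.LLeqL
import Fermat.Agent.GAL.FF.Riemann
import Fermat.Agent.S27.A.Api

/-!
# S37, block P3 (INV): the abstract setting

`K` algebraically closed of characteristic `0`, `F/K` a function field of one variable, `v` a valuation of `F`
with a reduction map `ρ : O_v → k((q))`, `x, x' ∈ O_v` with `ord_q ρ(x) = -m`, `ord_q ρ(x') = -m+1`,
`F = ⊕_{i<m} K(x) x'^i`, Riemann's inequality with `g`, and `g` independent "differentials" `f j` of the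
reduced curve.  These are exactly the hypotheses of `KLB.exists_redW_LL_eq`, `KLB.rootClosed_of_count`.
-/

set_option autoImplicit false

open Polynomial AlgebraicCurve

noncomputable section

namespace Fermat.Agent.S37.Inv

open Fermat.Agent.GAL.KL Fermat.Agent.GAL.KLC Fermat.Agent.GAL.KLB

/-- the hypotheses of the dimension count of `GAL/KLB/Count.lean`. -/
structure CountHyp (K : Type*) {F k Γ₀ : Type*} [Field K] [Field F] [Algebra K F] [Field k]
    [LinearOrderedCommGroupWithZero Γ₀] (v : Valuation F Γ₀) (ρ : v.integer →+* LaurentSeries k)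
    (x x' : F) (m g : ℕ) : Prop where
  red : IsRed K v ρ
  hx : x ∈ v.integer
  hx' : x' ∈ v.integer
  hm : 0 < m
  hxo : (ρ ⟨x, hx⟩).order = -(m : ℤ)
  hxo' : (ρ ⟨x', hx'⟩).order = -(m : ℤ) + 1
  hSp : Spans K x (fun i : Fin m => x' ^ (i : ℕ))
  hRI : ∀ a : ℕ, ((a * m + 1 : ℕ) : ℤ) - g ≤ Module.finrank K (LL K x a)
  ct : ∃ f : Fin g → LaurentSeries k, LinearIndependent k f ∧ (∀ j, 0 < (f j).order) ∧
    ∀ z : v.integer, IsInt k (ρ ⟨x, hx⟩) (ρ z) → ∀ j, (ρ z * f j).coeff 0 = 0

variable {K F k Γ₀ : Type*} [Field K] [Field F] [Algebra K F] [Field k]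
  [LinearOrderedCommGroupWithZero Γ₀] {v : Valuation F Γ₀} {ρ : v.integer →+* LaurentSeries k}
  {x x' : F} {m g : ℕ}

namespace CountHyp

variable (H : CountHyp K v ρ x x' m g)
include H

/-- `x` as an element of `O_v`. -/
def X : v.integer := ⟨x, H.hx⟩

theorem gauss : Gauss K v x := gauss_of_isRed H.red H.hx (by rw [H.hxo]; have := H.hm; omega)

theorem on : ON K v x (fun i : Fin m => x' ^ (i : ℕ)) :=
  on_of_isRed H.red H.hx H.hx' H.hm H.hxo H.hxo'

theorem transcendental : Transcendental K x := by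
  rw [transcendental_iff]
  intro p hp
  exact H.gauss.inj p hp

end CountHyp

end Fermat.Agent.S37.Inv
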