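import Fermat.Agent.S37.Inv.Defs

/-!
# S37, block P3 (INV), part B: `B̄ = ρ (B ∩ O_v)` is a finitely generated `k[ξ]`-module
-/

set_option autoImplicit false
set_option linter.style.haveILetI false

open Polynomial AlgebraicCurve

noncomputable section

namespace Fermat.Agent.S37.Inv

open Fermat.Agent.GAL.KL Fermat.Agent.GAL.KLC Fermat.Agent.GAL.KLB

variable {K F k Γ₀ : Type*} [Field K] [Field F] [Algebra K F] [Field k]
  [LinearOrderedCommGroupWithZero Γ₀] {v : Valuation F Γ₀} {ρ : v.integer →+* LaurentSeries k}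

/-- abstract form: `θ` stabilising a nonzero `k[ξ]`-submodule of a finitely generated `k[ξ]`-module
inside a domain is integral over `k[ξ]`. -/
theorem Fg_isIntegralElem_aux {k A : Type*} [Field k] [CommRing A] [IsDomain A] [Algebra k A]
    (ξ : A) {d : ℕ} (ε : Fin d → A) (𝔫 : Set A) (h0 : (0 : A) ∈ 𝔫)
    (hadd : ∀ a b : A, a ∈ 𝔫 → b ∈ 𝔫 → a + b ∈ 𝔫)
    (hC : ∀ (a : k) (φ : A), φ ∈ 𝔫 → algebraMap k A a * φ ∈ 𝔫)
    (h𝔫 : ∀ φ ∈ 𝔫, ∃ p : Fin d → k[X], φ = ∑ i, aeval ξ (p i) * ε i)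
    (hξ : ∀ φ ∈ 𝔫, ξ * φ ∈ 𝔫) (hne : ∃ φ ∈ 𝔫, φ ≠ 0) (θ : A) (hθ : ∀ φ ∈ 𝔫, θ * φ ∈ 𝔫) :
    ((aeval ξ : k[X] →ₐ[k] A) : k[X] →+* A).IsIntegralElem θ := by
  letI alg : Algebra k[X] A := ((aeval ξ : k[X] →ₐ[k] A) : k[X] →+* A).toAlgebra
  have hsmul : ∀ (p : k[X]) (φ : A), p • φ = aeval ξ p * φ := fun p φ => rfl
  have hpow : ∀ (n : ℕ) (φ : A), φ ∈ 𝔫 → ξ ^ n * φ ∈ 𝔫 := by
    intro n
    induction n with
    | zero => intro φ hφ; simpa using hφ
    | succ n ih =>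
      intro φ hφ
      rw [pow_succ, mul_assoc]
      exact ih _ (hξ φ hφ)
  have hclosed : ∀ (p : k[X]) (φ : A), φ ∈ 𝔫 → aeval ξ p * φ ∈ 𝔫 := by
    intro p
    induction p using Polynomial.induction_on' with
    | add p q hp hq =>
      intro φ hφ
      rw [map_add, add_mul]
      exact hadd _ _ (hp φ hφ) (hq φ hφ)
    | monomial n a =>
      intro φ hφ
      rw [aeval_monomial, mul_assoc]
      exact hC a _ (hpow n φ hφ)
  let N' : Submodule k[X] A :=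
    { carrier := 𝔫
      add_mem' := fun ha hb => hadd _ _ ha hb
      zero_mem' := h0
      smul_mem' := fun p φ hφ => hclosed p φ hφ }
  have hmem : ∀ φ, φ ∈ N' ↔ φ ∈ 𝔫 := fun φ => Iff.rfl
  have hle : N' ≤ Submodule.span k[X] (Set.range ε) := by
    intro φ hφ
    obtain ⟨p, rfl⟩ := h𝔫 φ hφ
    refine Submodule.sum_mem _ fun i _ => ?_
    rw [← hsmul]
    exact Submodule.smul_mem _ _ (Submodule.subset_span ⟨i, rfl⟩)
  have hfg : N'.FG := by
    have hN : IsNoetherian k[X] (Submodule.span k[X] (Set.range ε)) :=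
      isNoetherian_span_of_finite k[X] (Set.finite_range ε)
    exact isNoetherian_submodule.1 hN N' hle
  have hne' : N' ≠ ⊥ := by
    intro hbot
    obtain ⟨φ, hφ, hφ0⟩ := hne
    rw [Submodule.eq_bot_iff] at hbot
    exact hφ0 (hbot φ hφ)
  have hint : IsIntegral k[X] θ :=
    isIntegral_of_smul_mem_submodule N' hne' hfg θ (fun φ hφ => hθ φ hφ)
  exact hint

/-- `B̄ = ∑ k[ξ] ρ(e_i)` for an orthonormal basis `e` of `B`. -/
theorem exists_gen_redW_BBs [IsAlgClosed K] [CharZero K] (hρ : IsRed K v ρ) (t : v.integer)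
    (hG : Gauss K v (t : F)) {d : ℕ} (β : Fin d → F) (hβ : ON K v (t : F) β)
    (hβs : Spans K (t : F) β) :
    ∃ ε : Fin d → LaurentSeries k, ∀ φ ∈ redW hρ (BBs K (t : F)),
      ∃ p : Fin d → k[X], φ = comb k (ρ t) p ε := by
  obtain ⟨b, hb⟩ := exists_basis_BB hG.inj β (ON.inj hG hβ) hβs
  obtain ⟨e, he, hON⟩ := exists_ON_basis hG β hβ hβs (BB K (t : F)) b hb
  let E : Fin d → v.integer := fun j => ⟨e j, le_of_eq (hON.v_eq_one j)⟩
  refine ⟨fun i => ρ (E i), ?_⟩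
  rintro φ ⟨z, hz, rfl⟩
  obtain ⟨P, hP⟩ := (he.2 (z : F)).1 hz
  have hv : ∀ i n, v (algebraMap K F ((P i).coeff n)) ≤ 1 := by
    intro i
    refine (hG (P i) 1).1 ?_
    refine (hON P 1).1 ?_ i
    rw [← hP]
    exact z.2
  choose Q hQ using fun i => exists_lift_poly (P i) (hv i)
  have hE : z = ∑ i, eval₂ (toInt K v) t (Q i) * E i := by
    apply Subtype.ext
    have h1 : ((∑ i, eval₂ (toInt K v) t (Q i) * E i : v.integer) : F)
        = ∑ i, aeval (t : F) (P i) * e i := by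
      rw [← Subring.subtype_apply, map_sum]
      refine Finset.sum_congr rfl fun i _ => ?_
      rw [map_mul, Subring.subtype_apply, Subring.subtype_apply, coe_eval₂_toInt, hQ]
    rw [h1]
    exact hP
  refine ⟨fun i => (Q i).map (resK hρ), ?_⟩
  rw [hE, map_sum]
  refine Finset.sum_congr rfl fun i _ => ?_
  rw [map_mul, rho_aeval hρ]

/-- a series `θ` which stabilises a nonzero `k[ξ]`-submodule `𝔫` of `B̄` is integral over `k[ξ]`.
(`k[X]` is noetherian, so `𝔫` is finitely generated; `isIntegral_of_smul_mem_submodule` or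
`KLB.intRed_isIntegralElem`.) -/
theorem isInt_of_mul_mem [IsAlgClosed K] [CharZero K] (hρ : IsRed K v ρ) (t : v.integer)
    (hG : Gauss K v (t : F)) {d : ℕ} (β : Fin d → F) (hβ : ON K v (t : F) β)
    (hβs : Spans K (t : F) β) (𝔫 : Submodule k (LaurentSeries k))
    (h𝔫 : 𝔫 ≤ redW hρ (BBs K (t : F))) (hξ : ∀ φ ∈ 𝔫, ρ t * φ ∈ 𝔫) (hne : 𝔫 ≠ ⊥)
    (θ : LaurentSeries k) (hθ : ∀ φ ∈ 𝔫, θ * φ ∈ 𝔫) : IsInt k (ρ t) θ := by
  obtain ⟨ε, hε⟩ := exists_gen_redW_BBs hρ t hG β hβ hβs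
  have hne' : ∃ φ ∈ (𝔫 : Set (LaurentSeries k)), φ ≠ 0 := by
    by_contra hcon
    push Not at hcon
    exact hne ((Submodule.eq_bot_iff _).2 hcon)
  refine Fg_isIntegralElem_aux (ρ t) ε (𝔫 : Set (LaurentSeries k)) 𝔫.zero_mem
    (fun a b ha hb => 𝔫.add_mem ha hb) (fun a φ hφ => ?_) (fun φ hφ => hε φ (h𝔫 hφ)) hξ hne' θ hθ
  have h1 : algebraMap k (LaurentSeries k) a * φ = a • φ := by
    rw [ModularCurve.algebraMap_laurentSeries_eq_single k a]
    exact HahnSeries.C_mul_eq_smul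
  rw [h1]
  exact 𝔫.smul_mem a hφ

end Fermat.Agent.S37.Inv
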