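import Fermat.Agent.S37.Inv.Defs

/-!
# S37, block P3 (INV), part C: a function with a simple pole at `P` whose reduction is not integral
-/

set_option autoImplicit false

open Polynomial AlgebraicCurve

noncomputable section

namespace Fermat.Agent.S37.Inv

open Fermat.Agent.GAL.KL Fermat.Agent.GAL.KLC Fermat.Agent.GAL.KLB Fermat.Agent.S24.FF
open Fermat.Agent.GAL.FF
open Fermat.Agent.S27 (val)

variable {K F k Γ₀ : Type*} [Field K] [Field F] [Algebra K F] [Field k]
  [LinearOrderedCommGroupWithZero Γ₀] {v : Valuation F Γ₀} {ρ : v.integer →+* LaurentSeries k}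
  {x x' : F} {m g : ℕ}

/-- `deg (x)_∞ = m`. -/
theorem degree_poleDiv_eq [IsAlgClosed K] [CharZero K] [IsFF1 K F] (H : CountHyp K v ρ x x' m g) :
    Divisor.degree (poleDiv K x) = m := by
  rw [degree_poleDiv H.transcendental,
    finrank_adjoin_of_spans_of_transcendental _ H.transcendental H.hSp (H.on.inj H.gauss)]

/-- for `a ≫ 0`: `ℓ(a (x)_∞ + P) + g = a m + 2`
(`KLB.exists_redW_LL_eq`, `KLC.LL_eq_L`, `FF.exists_degree_bound`). -/
theorem exists_ell_add_single [IsAlgClosed K] [CharZero K] [IsFF1 K F]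
    (H : CountHyp K v ρ x x' m g) (P : Place K F) :
    ∃ a₀ : ℕ, ∀ a, a₀ ≤ a → ell (a • poleDiv K x + Finsupp.single P 1) + g = a * m + 2 := by
  obtain ⟨f, hf, hf0, hb2⟩ := H.ct
  obtain ⟨a₀, ha₀⟩ := exists_redW_LL_eq H.red H.hx H.hx' H.hm H.hxo H.hxo' H.hSp H.hRI f hf hf0 hb2
  obtain ⟨c, hc⟩ := exists_degree_bound K F
  have hm := H.hm
  have hdeg : ∀ a : ℕ, Divisor.degree (a • poleDiv K x) = (a : ℤ) * m := by
    intro a
    rw [map_nsmul, degree_poleDiv_eq H, nsmul_eq_mul]
  have hbig : ∀ a : ℕ, max a₀ c.toNat ≤ a → c ≤ (a : ℤ) * m := by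
    intro a ha
    have h1 : c.toNat ≤ a := le_trans (le_max_right _ _) ha
    have h2 : c ≤ (a : ℤ) := by omega
    have h3 : (a : ℤ) ≤ (a : ℤ) * m := by
      have : (1 : ℤ) ≤ m := by exact_mod_cast hm
      nlinarith
    omega
  -- `g` is the genus
  have hg : (g : ℤ) = genusFF K F := by
    set a := max a₀ c.toNat with ha
    have h1 := (ha₀ a (le_max_left _ _)).2.2.2
    rw [LL_eq_L H.transcendental a] at h1
    have h2 := (hc (a • poleDiv K x) (by rw [hdeg]; exact hbig a le_rfl)).2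
    rw [hdeg] at h2
    have h3 : ((ell (a • poleDiv K x) : ℕ) : ℤ) + g = (a : ℤ) * m + 1 := by exact_mod_cast h1
    omega
  refine ⟨max a₀ c.toNat, fun a ha => ?_⟩
  have hd : Divisor.degree (a • poleDiv K x + Finsupp.single P 1) = (a : ℤ) * m + 1 := by
    rw [map_add, hdeg, degree_single_one]
  have h2 := (hc _ (by rw [hd]; have := hbig a ha; omega)).2
  rw [hd, ← hg] at h2
  have h3 : ((ell (a • poleDiv K x + Finsupp.single P 1) + g : ℕ) : ℤ) = ((a * m + 2 : ℕ) : ℤ) := by
    push_cast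
    omega
  exact_mod_cast h3

/-- `v (x - c) = 1` for `c ∈ A_K`. -/
theorem Theta_v_sub (hG : Gauss K v x) {c : K} (hc : c ∈ AK K v) :
    v (x - algebraMap K F c) = 1 := by
  have h := hG (X - C c)
  have e : aeval x (X - C c : K[X]) = x - algebraMap K F c := by simp
  rw [e] at h
  apply le_antisymm
  · rw [h]
    intro i
    rcases i with _ | _ | i
    · simpa using mem_AK.mp hc
    · simp
    · have : (X - C c : K[X]).coeff (i + 1 + 1) = 0 := by
        rw [coeff_sub, coeff_X, coeff_C, if_neg (by omega), if_neg (by omega), sub_zero]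
      rw [this, map_zero, map_zero]
      exact zero_le
  · have h1 := (h _).mp le_rfl 1
    simpa using h1

/-- multiplication by a Laurent series, as a `k`-linear map. -/
def Theta_mulL (ψ : LaurentSeries k) : LaurentSeries k →ₗ[k] LaurentSeries k where
  toFun φ := ψ * φ
  map_add' := mul_add ψ
  map_smul' c φ := by
    rw [RingHom.id_apply, ← HahnSeries.C_mul_eq_smul, ← HahnSeries.C_mul_eq_smul, mul_left_comm]

/-- RED for a subspace `W` with `(x - c) W ⊆ B`, `c ∈ A_K`. -/
theorem exists_linearIndependent_red_of_mul [IsAlgClosed K] [CharZero K]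
    (H : CountHyp K v ρ x x' m g) (c : K) (hc : c ∈ AK K v) (W : Submodule K F)
    (hW : ∀ z ∈ W, IsInt K x ((x - algebraMap K F c) * z)) [FiniteDimensional K W] :
    ∃ z : Fin (Module.finrank K W) → v.integer,
      (∀ i, (z i : F) ∈ W) ∧ LinearIndependent k (fun i => ρ (z i)) := by
  set u : F := x - algebraMap K F c with hu
  have hvu : v u = 1 := Theta_v_sub H.gauss hc
  have hu0 : u ≠ 0 := by
    intro h
    rw [h, map_zero] at hvu
    exact zero_ne_one hvu
  have hinj : Function.Injective (LinearMap.mulLeft K u) := fun a b h => mul_left_cancel₀ hu0 h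
  set W' : Submodule K F := W.map (LinearMap.mulLeft K u) with hW'
  have hW'le : W' ≤ BBs K x := by
    rintro _ ⟨z, hz, rfl⟩
    exact hW z hz
  have hfin : FiniteDimensional K W' := by rw [hW']; infer_instance
  have hrank : Module.finrank K W' = Module.finrank K W :=
    (LinearEquiv.finrank_eq (Submodule.equivMapOfInjective _ hinj W)).symm
  obtain ⟨z', hz'W, hz'li⟩ := Red_aux H.red (hasFun_BBs H.gauss _ H.on H.hSp) _ W' hW'le hfin hrank
  choose w hwW hw using hz'W
  have hwint : ∀ i, w i ∈ v.integer := by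
    intro i
    have h1 : v (u * w i) ≤ 1 := by
      have h2 : u * w i = (z' i : F) := hw i
      rw [h2]
      exact (z' i).2
    rwa [map_mul, hvu, one_mul] at h1
  refine ⟨fun i => ⟨w i, hwint i⟩, hwW, ?_⟩
  have hU : u ∈ v.integer := by rw [Valuation.mem_integer_iff, hvu]
  apply LinearIndependent.of_comp (Theta_mulL (ρ ⟨u, hU⟩))
  convert hz'li using 1
  funext i
  show ρ ⟨u, hU⟩ * ρ ⟨w i, hwint i⟩ = ρ (z' i)
  rw [← map_mul]
  congr 1
  exact Subtype.ext (hw i)

/-- `(x - x(P)) L(a (x)_∞ + P) ⊆ L((a+1) (x)_∞)`. -/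
theorem Theta_mul_mem_LL [IsAlgClosed K] [CharZero K] [IsFF1 K F] (hx : Transcendental K x)
    (P : Place K F) (hP : 0 ≤ P.ord x) (a : ℕ) {z : F}
    (hz : z ∈ riemannRochSpace (a • poleDiv K x + Finsupp.single P 1)) :
    (x - algebraMap K F (val P x)) * z ∈ LL K x (a + 1) := by
  classical
  rw [LL_eq_L hx, mem_riemannRochSpace_iff]
  rw [mem_riemannRochSpace_iff] at hz
  intro Q
  rcases eq_or_ne z 0 with rfl | hz0
  · left; rw [mul_zero]
  right
  have hu0 : x - algebraMap K F (val P x) ≠ 0 := by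
    intro h
    exact hx (by rw [sub_eq_zero.mp h]; exact isAlgebraic_algebraMap _)
  have hzQ := (hz Q).resolve_left hz0
  rw [Q.ord_mul hu0 hz0]
  rw [Finsupp.add_apply, Finsupp.smul_apply, poleDiv_apply, nsmul_eq_mul,
    Finsupp.single_apply] at hzQ
  rw [Finsupp.smul_apply, poleDiv_apply, nsmul_eq_mul]
  rcases lt_or_ge (Q.ord x) 0 with h | h
  · have hQP : P ≠ Q := by rintro rfl; omega
    rw [if_neg hQP, max_eq_right (by omega)] at hzQ
    rw [max_eq_right (by omega), ord_sub_algebraMap_of_pole Q h]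
    push_cast
    linarith
  · rw [max_eq_left (by omega)] at hzQ
    rw [max_eq_left (by omega)]
    by_cases hQP : P = Q
    · subst hQP
      rw [if_pos rfl] at hzQ
      have h1 := (Fermat.Agent.S27.val_spec' P hP).resolve_left hu0
      simp only [mul_zero, zero_add, neg_zero] at hzQ ⊢
      omega
    · rw [if_neg hQP] at hzQ
      have h1 : 0 ≤ Q.ord (x - algebraMap K F (val P x)) :=
        Fermat.Agent.S27.ord_sub_nonneg Q h (Fermat.Agent.S27.ord_algebraMap_nonneg Q _)
      simp only [mul_zero, add_zero, neg_zero] at hzQ ⊢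
      omega

theorem Theta_order_sub_C {ξ : LaurentSeries k} {n : ℤ} (hξ : ξ.order = n) (hn : n < 0) (c : k) :
    (ξ - HahnSeries.C c).order = n := by
  have hξ0 : ξ ≠ 0 := by
    rintro rfl
    rw [HahnSeries.order_zero] at hξ
    omega
  have hcoeff : ∀ i : ℤ, i < 0 → (ξ - HahnSeries.C c).coeff i = ξ.coeff i := by
    intro i hi
    rw [HahnSeries.coeff_sub, HahnSeries.C_apply, HahnSeries.coeff_single_of_ne hi.ne, sub_zero]
  have hne : (ξ - HahnSeries.C c).coeff n ≠ 0 := by
    rw [hcoeff n hn, ← hξ]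
    exact fun h => hξ0 (HahnSeries.coeff_order_eq_zero.mp h)
  have h0 : ξ - HahnSeries.C c ≠ 0 := fun h => hne (by rw [h]; rfl)
  apply le_antisymm
  · exact HahnSeries.order_le_of_coeff_ne_zero hne
  · rw [HahnSeries.le_order_iff_forall h0]
    intro j hj
    rw [hcoeff j (by omega)]
    exact HahnSeries.coeff_eq_zero_of_lt_order (by rw [hξ]; exact hj)

/-- pole order at `q = 0` of the reductions of `L(a (x)_∞ + P)`. -/
theorem coeff_rho_eq_zero [IsAlgClosed K] [CharZero K] [IsFF1 K F]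
    (H : CountHyp K v ρ x x' m g) (P : Place K F) (hP : 0 ≤ P.ord x) (hPx : val P x ∈ AK K v)
    (a : ℕ) (z : v.integer) (hz : (z : F) ∈ riemannRochSpace (a • poleDiv K x + Finsupp.single P 1)) :
    ∀ i : ℤ, i < -((a * m : ℕ) : ℤ) → (ρ z).coeff i = 0 := by
  have hm := H.hm
  have hvu : v (x - algebraMap K F (val P x)) = 1 := Theta_v_sub H.gauss hPx
  have hU : x - algebraMap K F (val P x) ∈ v.integer := by rw [Valuation.mem_integer_iff, hvu]
  set U : v.integer := ⟨x - algebraMap K F (val P x), hU⟩ with hUdef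
  have hmem : ((U * z : v.integer) : F) ∈ LL K x (a + 1) :=
    Theta_mul_mem_LL H.transcendental P hP a hz
  have h1 : ρ (U * z) ∈ Bbar H.red (ρ ⟨x, H.hx⟩) (a + 1) :=
    redW_LL_le H.red ⟨x, H.hx⟩ H.gauss H.on H.hSp (a + 1) ⟨U * z, hmem, rfl⟩
  have h2 := coeff_eq_zero_of_isInt_inv H.hxo H.hm (a + 1) h1.1.2
  have hρU : ρ U = ρ ⟨x, H.hx⟩ - HahnSeries.C (resK H.red ⟨val P x, hPx⟩) := by
    rw [← rho_toInt' H.red, ← map_sub]
    rfl
  have hUord : (ρ U).order = -(m : ℤ) := by
    rw [hρU]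
    exact Theta_order_sub_C H.hxo (by omega) _
  have hU0 : ρ U ≠ 0 := by
    intro h
    rw [h, HahnSeries.order_zero] at hUord
    omega
  intro i hi
  rcases eq_or_ne (ρ z) 0 with h0 | h0
  · rw [h0]; rfl
  apply HahnSeries.coeff_eq_zero_of_lt_order
  have h3 : -(((a + 1) * m : ℕ) : ℤ) ≤ (ρ (U * z)).order :=
    (HahnSeries.le_order_iff_forall (by rw [map_mul]; exact mul_ne_zero hU0 h0)).mpr h2
  rw [map_mul, HahnSeries.order_mul hU0 h0, hUord] at h3
  push_cast at h3 hi
  linarith

/-- **existence of `θ`**. -/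
theorem exists_not_isInt [IsAlgClosed K] [CharZero K] [IsFF1 K F]
    (H : CountHyp K v ρ x x' m g) (P : Place K F) (hP : 0 ≤ P.ord x) (hPx : val P x ∈ AK K v) :
    ∃ t : v.integer, ¬ IsInt k (ρ ⟨x, H.hx⟩) (ρ t) ∧ -1 ≤ P.ord (t : F) ∧
      ∀ Q : Place K F, 0 ≤ Q.ord x → Q ≠ P → 0 ≤ Q.ord (t : F) := by
  classical
  by_contra hcon
  push Not at hcon
  have hm := H.hm
  obtain ⟨f, hf, hf0, hb2⟩ := H.ct
  obtain ⟨s₀, hs₀⟩ := exists_trunc_linearIndependent f hf hf0
  obtain ⟨a₀, ha₀⟩ := exists_ell_add_single H P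
  set a := max a₀ s₀ with ha
  have ha1 : s₀ ≤ a * m := le_trans (le_max_right _ _) (Nat.le_mul_of_pos_right a hm)
  set W : Submodule K F := riemannRochSpace (a • poleDiv K x + Finsupp.single P 1) with hW
  -- every integral element of `W` has an integral reduction
  have hint : ∀ t : v.integer, (t : F) ∈ W → IsInt k (ρ ⟨x, H.hx⟩) (ρ t) := by
    intro t ht
    by_contra hnot
    rw [hW, mem_riemannRochSpace_iff] at ht
    have hord : ∀ Q : Place K F, 0 ≤ Q.ord x → -(if P = Q then (1 : ℤ) else 0) ≤ Q.ord (t : F) := by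
      intro Q hQ
      rcases ht Q with h0 | h0
      · rw [h0, Place.ord_zero]
        split_ifs <;> simp
      · rw [Finsupp.add_apply, Finsupp.smul_apply, poleDiv_apply, nsmul_eq_mul,
          Finsupp.single_apply, max_eq_left (by omega), mul_zero, zero_add] at h0
        exact h0
    obtain ⟨Q, hQ, hQP, hlt⟩ := hcon t hnot (by simpa using hord P hP)
    have := hord Q hQ
    rw [if_neg (Ne.symm hQP)] at this
    omega
  have hB := finrank_le_of_ct (redW H.red W) (a * m) g
    (by
      rintro _ ⟨z, hz, rfl⟩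
      exact coeff_rho_eq_zero H P hP hPx a z hz)
    f hf0 (hs₀ _ ha1)
    (by
      rintro _ ⟨z, hz, rfl⟩ h0
      exact b1_of_isRed H.red H.hx H.hx' H.hm H.hxo H.hxo' H.gauss H.on H.hSp z (hint z hz) h0)
    (by
      rintro _ ⟨z, hz, rfl⟩ j
      exact hb2 z (hint z hz) j)
  obtain ⟨z, hzW, hzli⟩ := exists_linearIndependent_red_of_mul H (val P x) hPx W
    (fun z hz => (Theta_mul_mem_LL H.transcendental P hP a hz).1)
  have := hB.1
  have hli : LinearIndependent k (fun i => (⟨ρ (z i), z i, hzW i, rfl⟩ : redW H.red W)) :=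
    LinearIndependent.of_comp (redW H.red W).subtype hzli
  have h1 := hli.fintype_card_le_finrank
  rw [Fintype.card_fin] at h1
  have h2 := ha₀ a (le_max_left _ _)
  have h3 := hB.2
  have h4 : ell (a • poleDiv K x + Finsupp.single P 1) = Module.finrank K W := rfl
  omega

end Fermat.Agent.S37.Inv
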